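import Fermat.Agent.S05.H98.VarChangePoint
import Fermat.Prelude.Def_FLTPrelim_Ramification

/-!
# Galois equivariance of the change-of-variables map on points

For a Weierstrass curve `W'` over `R`, a change of variables `C₀` over `R`, and a field `K`
over `S` over `R`, the isomorphism `(W'⁄K).Point ≃+ ((C₀ • W')⁄K).Point` commutes with the action
of `K ≃ₐ[S] K` (the action of the Prelude, `σ • P = Point.map σ P`).  Consequently the Prelude
predicate `GaloisRepUnramifiedAt` is invariant under changes of variables.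
-/

set_option autoImplicit false

namespace Fermat.Agent.S05.H98

open WeierstrassCurve WeierstrassCurve.Affine WeierstrassCurve.Affine.Point

variable {R : Type*} {S : Type*} {K : Type*} [CommRing R] [CommRing S] [Field K]
  [Algebra R S] [Algebra R K] [Algebra S K] [IsScalarTower R S K]

/-- Base change commutes with changes of variables. -/
lemma baseChange_smul_eq (C₀ : VariableChange R) (W' : Affine R) :
    (C₀.map (algebraMap R K)) • (W'⁄K : WeierstrassCurve K) = ((C₀ • W')⁄K : Affine K) :=
  map_variableChange W' C₀ (algebraMap R K)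

lemma nonsingular_baseChange_smul (C₀ : VariableChange R) (W' : Affine R) {x y : K}
    (h : (W'⁄K).Nonsingular x y) :
    ((C₀ • W')⁄K).Nonsingular (vcX (C₀.map (algebraMap R K)) x)
      (vcY (C₀.map (algebraMap R K)) x y) :=
  nonsingular_of_eq (C₀.map (algebraMap R K)) (W'⁄K) (baseChange_smul_eq C₀ W') h

lemma algEquiv_algebraMap (σ : K ≃ₐ[S] K) (a : R) : σ (algebraMap R K a) = algebraMap R K a := by
  rw [IsScalarTower.algebraMap_apply R S K, σ.commutes]

lemma algEquiv_vcX (C₀ : VariableChange R) (σ : K ≃ₐ[S] K) (x : K) :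
    σ (vcX (C₀.map (algebraMap R K)) x) = vcX (C₀.map (algebraMap R K)) (σ x) := by
  simp only [vcX, VariableChange.map, Units.coe_map, MonoidHom.coe_coe, map_mul, map_pow, map_inv₀,
    map_sub, algEquiv_algebraMap]

lemma algEquiv_vcY (C₀ : VariableChange R) (σ : K ≃ₐ[S] K) (x y : K) :
    σ (vcY (C₀.map (algebraMap R K)) x y) = vcY (C₀.map (algebraMap R K)) (σ x) (σ y) := by
  simp only [vcY, VariableChange.map, Units.coe_map, MonoidHom.coe_coe, map_mul, map_pow, map_inv₀,
    map_sub, algEquiv_algebraMap]

variable [DecidableEq K]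

/-- The isomorphism `(W'⁄K).Point ≃+ ((C₀ • W')⁄K).Point` induced by a change of variables
defined over the base ring. -/
noncomputable def baseChangePointEquiv (C₀ : VariableChange R) (W' : Affine R) :
    (W'⁄K).Point ≃+ ((C₀ • W')⁄K).Point :=
  pointEquivOfEq (C₀.map (algebraMap R K)) (W'⁄K) ((C₀ • W')⁄K) (baseChange_smul_eq C₀ W')

@[simp] lemma baseChangePointEquiv_zero (C₀ : VariableChange R) (W' : Affine R) :
    baseChangePointEquiv (K := K) C₀ W' 0 = 0 :=
  pointEquivOfEq_zero _ _ _ _

lemma baseChangePointEquiv_some (C₀ : VariableChange R) (W' : Affine R) {x y : K}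
    (h : (W'⁄K).Nonsingular x y) :
    baseChangePointEquiv (K := K) C₀ W' (.some x y h) =
      .some (vcX (C₀.map (algebraMap R K)) x) (vcY (C₀.map (algebraMap R K)) x y)
        (nonsingular_baseChange_smul C₀ W' h) :=
  pointEquivOfEq_some _ _ _ _ _

/-- The Prelude Galois action on an affine point, coordinatewise. -/
lemma exists_smul_some (W' : Affine R) (σ : K ≃ₐ[S] K) {x y : K} (h : (W'⁄K).Nonsingular x y) :
    ∃ h' : (W'⁄K).Nonsingular (σ x) (σ y),
      σ • (Point.some x y h : (W'⁄K).Point) = Point.some (σ x) (σ y) h' :=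
  ⟨_, rfl⟩

/-- The change-of-variables isomorphism commutes with the Galois action. -/
lemma baseChangePointEquiv_smul (C₀ : VariableChange R) (W' : Affine R) (σ : K ≃ₐ[S] K)
    (P : (W'⁄K).Point) :
    baseChangePointEquiv C₀ W' (σ • P) = σ • baseChangePointEquiv C₀ W' P := by
  rcases P with _ | ⟨x, y, h⟩
  · change baseChangePointEquiv C₀ W' (σ • (0 : (W'⁄K).Point)) =
      σ • baseChangePointEquiv C₀ W' (0 : (W'⁄K).Point)
    rw [baseChangePointEquiv_zero, smul_zero, baseChangePointEquiv_zero, smul_zero]
  · obtain ⟨h₁, e₁⟩ := exists_smul_some W' σ h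
    obtain ⟨h₂, e₂⟩ := exists_smul_some (C₀ • W') σ (nonsingular_baseChange_smul C₀ W' h)
    rw [e₁, baseChangePointEquiv_some, baseChangePointEquiv_some, e₂]
    exact some_congr _ _ (algEquiv_vcX C₀ σ x).symm (algEquiv_vcY C₀ σ x y).symm

/-- The change-of-variables isomorphism restricted to `n`-torsion. -/
lemma baseChangePointEquiv_mem_torsionBy (C₀ : VariableChange R) (W' : Affine R) (n : ℕ)
    {P : (W'⁄K).Point} (hP : P ∈ Submodule.torsionBy ℤ (W'⁄K).Point n) :
    baseChangePointEquiv C₀ W' P ∈ Submodule.torsionBy ℤ ((C₀ • W')⁄K).Point n := by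
  rw [Submodule.mem_torsionBy_iff] at hP ⊢
  rw [← map_zsmul, hP, _root_.map_zero]

end Fermat.Agent.S05.H98

namespace Fermat.Agent.S05.H98

open WeierstrassCurve WeierstrassCurve.Affine WeierstrassCurve.Affine.Point

variable {R : Type*} {S : Type*} {K : Type*} [CommRing R] [Field S] [Field K]
  [DecidableEq K] [Algebra R S] [Algebra R K] [Algebra S K] [IsScalarTower R S K]

/-- The Prelude predicate `GaloisRepUnramifiedAt` can be checked after an admissible change of
variables defined over the base ring. -/
theorem galoisRepUnramifiedAt_of_smul (C₀ : VariableChange R) (W' : Affine R) (n q : ℕ)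
    (h : GaloisRepUnramifiedAt S K (C₀ • W') n q) : GaloisRepUnramifiedAt S K W' n q := by
  intro A hA σ hσ x
  have hx := baseChangePointEquiv_mem_torsionBy C₀ W' n x.2
  have key := h A hA σ hσ ⟨_, hx⟩
  have key' : σ • baseChangePointEquiv C₀ W' (x : (W'⁄K).Point) =
      baseChangePointEquiv C₀ W' (x : (W'⁄K).Point) := congrArg Subtype.val key
  rw [← baseChangePointEquiv_smul] at key'
  exact Subtype.ext ((baseChangePointEquiv C₀ W').injective key')

/-- The Prelude predicate `GaloisRepUnramifiedAt` is invariant under admissible changes of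
variables defined over the base ring. -/
theorem galoisRepUnramifiedAt_smul_iff (C₀ : VariableChange R) (W' : Affine R) (n q : ℕ) :
    GaloisRepUnramifiedAt S K (C₀ • W') n q ↔ GaloisRepUnramifiedAt S K W' n q := by
  refine ⟨galoisRepUnramifiedAt_of_smul C₀ W' n q, fun h => ?_⟩
  have h' : GaloisRepUnramifiedAt S K (C₀⁻¹ • (C₀ • W')) n q := by
    rwa [inv_smul_smul]
  exact galoisRepUnramifiedAt_of_smul C₀⁻¹ (C₀ • W') n q h'

end Fermat.Agent.S05.H98
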