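import Mathlib.AlgebraicGeometry.EllipticCurve.Affine.Point

/-!
# The map on points induced by an admissible change of variables

For a Weierstrass curve `W` over a field `F` and `C : WeierstrassCurve.VariableChange F` with
coefficients `(u, r, s, t)`, a point `(x, y)` of `W` corresponds to the point `(x', y')` of
`C • W` with `x = u² x' + r`, `y = u³ y' + u² s x' + t`.  We show that this is an isomorphism of
groups `pointEquiv C W : W.Point ≃+ (C • W).Point`.
-/

set_option autoImplicit false

namespace Fermat.Agent.S05.H98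

open WeierstrassCurve WeierstrassCurve.Affine

variable {F : Type*} [Field F]

/-- The new `x`-coordinate `u⁻² (x - r)`. -/
def vcX (C : VariableChange F) (x : F) : F :=
  (C.u : F)⁻¹ ^ 2 * (x - C.r)

/-- The new `y`-coordinate `u⁻³ (y - s (x - r) - t)`. -/
def vcY (C : VariableChange F) (x y : F) : F :=
  (C.u : F)⁻¹ ^ 3 * (y - C.s * (x - C.r) - C.t)

/-- The old `x`-coordinate `u² x' + r`. -/
def vcX' (C : VariableChange F) (x' : F) : F :=
  (C.u : F) ^ 2 * x' + C.r

/-- The old `y`-coordinate `u³ y' + u² s x' + t`. -/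
def vcY' (C : VariableChange F) (x' y' : F) : F :=
  (C.u : F) ^ 3 * y' + (C.u : F) ^ 2 * C.s * x' + C.t

section basic

variable (C : VariableChange F)

lemma u_ne_zero : (C.u : F) ≠ 0 := C.u.ne_zero

lemma coe_inv_u : ((C.u⁻¹ : Fˣ) : F) = (C.u : F)⁻¹ := Units.val_inv_eq_inv_val C.u

@[simp] lemma vcX'_vcX (x : F) : vcX' C (vcX C x) = x := by
  have hu := u_ne_zero C
  simp only [vcX, vcX']
  field_simp
  ring

@[simp] lemma vcY'_vcY (x y : F) : vcY' C (vcX C x) (vcY C x y) = y := by
  have hu := u_ne_zero C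
  simp only [vcX, vcY, vcY']
  field_simp
  ring

@[simp] lemma vcX_vcX' (x' : F) : vcX C (vcX' C x') = x' := by
  have hu := u_ne_zero C
  simp only [vcX, vcX']
  field_simp
  ring

@[simp] lemma vcY_vcY' (x' y' : F) : vcY C (vcX' C x') (vcY' C x' y') = y' := by
  have hu := u_ne_zero C
  simp only [vcY, vcX', vcY']
  field_simp
  ring

/-- For a translation `C = ⟨1, x₀, 0, y₀⟩` the new coordinates are `(x - x₀, y - y₀)`. -/
lemma vcX_translation (x₀ y₀ x : F) : vcX (⟨1, x₀, 0, y₀⟩ : VariableChange F) x = x - x₀ := by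
  simp [vcX]

lemma vcY_translation (x₀ y₀ x y : F) :
    vcY (⟨1, x₀, 0, y₀⟩ : VariableChange F) x y = y - y₀ := by
  simp [vcY]

lemma vcX_injective : Function.Injective (vcX C) := fun a b h => by
  have := congrArg (vcX' C) h
  simpa using this

lemma vcY_injective (x : F) : Function.Injective (vcY C x) := fun a b h => by
  have := congrArg (vcY' C (vcX C x)) h
  simpa using this

end basic

section eqn

variable (C : VariableChange F) (W : WeierstrassCurve F)

lemma evalEval_polynomial_smul (x' y' : F) :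
    (C • W).toAffine.polynomial.evalEval x' y' =
      (C.u : F)⁻¹ ^ 6 * W.toAffine.polynomial.evalEval (vcX' C x') (vcY' C x' y') := by
  have hu := u_ne_zero C
  simp only [evalEval_polynomial, variableChange_a₁, variableChange_a₂, variableChange_a₃,
    variableChange_a₄, variableChange_a₆, coe_inv_u, vcX', vcY']
  field_simp
  ring

lemma evalEval_polynomialY_smul (x' y' : F) :
    (C • W).toAffine.polynomialY.evalEval x' y' =
      (C.u : F)⁻¹ ^ 3 * W.toAffine.polynomialY.evalEval (vcX' C x') (vcY' C x' y') := by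
  have hu := u_ne_zero C
  simp only [evalEval_polynomialY, variableChange_a₁, variableChange_a₃, coe_inv_u, vcX', vcY']
  field_simp
  ring

lemma evalEval_polynomialX_smul (x' y' : F) :
    (C • W).toAffine.polynomialX.evalEval x' y' =
      (C.u : F)⁻¹ ^ 4 * (W.toAffine.polynomialX.evalEval (vcX' C x') (vcY' C x' y') +
        C.s * W.toAffine.polynomialY.evalEval (vcX' C x') (vcY' C x' y')) := by
  have hu := u_ne_zero C
  simp only [evalEval_polynomialX, evalEval_polynomialY, variableChange_a₁, variableChange_a₂,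
    variableChange_a₄, coe_inv_u, vcX', vcY']
  field_simp
  ring

/-- `(x', y')` lies on `C • W` iff `(u² x' + r, u³ y' + u² s x' + t)` lies on `W`. -/
lemma equation_smul_iff (x' y' : F) :
    (C • W).toAffine.Equation x' y' ↔ W.toAffine.Equation (vcX' C x') (vcY' C x' y') := by
  have hu : (C.u : F)⁻¹ ^ 6 ≠ 0 := pow_ne_zero _ (inv_ne_zero (u_ne_zero C))
  rw [Equation, Equation, evalEval_polynomial_smul, mul_eq_zero, or_iff_right hu]

/-- `(x', y')` is a nonsingular point of `C • W` iff `(u² x' + r, u³ y' + u² s x' + t)` is a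
nonsingular point of `W`. -/
lemma nonsingular_smul_iff (x' y' : F) :
    (C • W).toAffine.Nonsingular x' y' ↔
      W.toAffine.Nonsingular (vcX' C x') (vcY' C x' y') := by
  have hu3 : (C.u : F)⁻¹ ^ 3 ≠ 0 := pow_ne_zero _ (inv_ne_zero (u_ne_zero C))
  have hu4 : (C.u : F)⁻¹ ^ 4 ≠ 0 := pow_ne_zero _ (inv_ne_zero (u_ne_zero C))
  rw [Nonsingular, Nonsingular, equation_smul_iff, evalEval_polynomialX_smul,
    evalEval_polynomialY_smul]
  refine and_congr_right fun _ => ?_
  rw [mul_ne_zero_iff, mul_ne_zero_iff]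
  constructor
  · rintro (⟨-, h⟩ | ⟨-, h⟩)
    · by_cases hY : W.toAffine.polynomialY.evalEval (vcX' C x') (vcY' C x' y') = 0
      · left
        simpa [hY] using h
      · exact Or.inr hY
    · exact Or.inr h
  · intro h
    by_cases hY : W.toAffine.polynomialY.evalEval (vcX' C x') (vcY' C x' y') = 0
    · left
      refine ⟨hu4, ?_⟩
      rcases h with h | h
      · simpa [hY] using h
      · exact absurd hY h
    · exact Or.inr ⟨hu3, hY⟩

/-- `(x, y)` lies on `W` iff `(u⁻² (x - r), u⁻³ (y - s (x - r) - t))` lies on `C • W`. -/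
lemma equation_iff_smul (x y : F) :
    W.toAffine.Equation x y ↔ (C • W).toAffine.Equation (vcX C x) (vcY C x y) := by
  rw [equation_smul_iff, vcX'_vcX, vcY'_vcY]

/-- `(x, y)` is a nonsingular point of `W` iff `(u⁻² (x - r), u⁻³ (y - s (x - r) - t))` is a
nonsingular point of `C • W`. -/
lemma nonsingular_iff_smul (x y : F) :
    W.toAffine.Nonsingular x y ↔ (C • W).toAffine.Nonsingular (vcX C x) (vcY C x y) := by
  rw [nonsingular_smul_iff, vcX'_vcX, vcY'_vcY]

lemma negY_smul (x y : F) :
    (C • W).toAffine.negY (vcX C x) (vcY C x y) = vcY C x (W.toAffine.negY x y) := by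
  have hu := u_ne_zero C
  simp only [negY, variableChange_a₁, variableChange_a₃, coe_inv_u, vcX, vcY]
  field_simp
  ring

lemma addX_smul (x₁ x₂ ℓ : F) :
    (C • W).toAffine.addX (vcX C x₁) (vcX C x₂) ((C.u : F)⁻¹ * (ℓ - C.s)) =
      vcX C (W.toAffine.addX x₁ x₂ ℓ) := by
  have hu := u_ne_zero C
  simp only [addX, variableChange_a₁, variableChange_a₂, coe_inv_u, vcX]
  field_simp
  ring

lemma negAddY_smul (x₁ x₂ y₁ ℓ : F) :
    (C • W).toAffine.negAddY (vcX C x₁) (vcX C x₂) (vcY C x₁ y₁) ((C.u : F)⁻¹ * (ℓ - C.s)) =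
      vcY C (W.toAffine.addX x₁ x₂ ℓ) (W.toAffine.negAddY x₁ x₂ y₁ ℓ) := by
  have hu := u_ne_zero C
  rw [negAddY, addX_smul]
  simp only [negAddY, vcX, vcY]
  field_simp
  ring

lemma addY_smul (x₁ x₂ y₁ ℓ : F) :
    (C • W).toAffine.addY (vcX C x₁) (vcX C x₂) (vcY C x₁ y₁) ((C.u : F)⁻¹ * (ℓ - C.s)) =
      vcY C (W.toAffine.addX x₁ x₂ ℓ) (W.toAffine.addY x₁ x₂ y₁ ℓ) := by
  rw [addY, negAddY_smul, addX_smul, negY_smul, addY]

variable [DecidableEq F]

lemma slope_smul {x₁ x₂ y₁ y₂ : F} (h₁ : W.toAffine.Equation x₁ y₁)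
    (h₂ : W.toAffine.Equation x₂ y₂) (hxy : ¬(x₁ = x₂ ∧ y₁ = W.toAffine.negY x₂ y₂)) :
    (C • W).toAffine.slope (vcX C x₁) (vcX C x₂) (vcY C x₁ y₁) (vcY C x₂ y₂) =
      (C.u : F)⁻¹ * (W.toAffine.slope x₁ x₂ y₁ y₂ - C.s) := by
  have hu := u_ne_zero C
  by_cases hx : x₁ = x₂
  · have hy : y₁ ≠ W.toAffine.negY x₂ y₂ := fun h => hxy ⟨hx, h⟩
    have hy' : vcY C x₁ y₁ ≠ (C • W).toAffine.negY (vcX C x₂) (vcY C x₂ y₂) := by
      rw [negY_smul, ← hx]
      exact fun h => hy (hx ▸ vcY_injective C x₁ h)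
    have hY : W.toAffine.polynomialY.evalEval x₁ y₁ ≠ 0 := by
      have hyy : y₁ = y₂ := Y_eq_of_Y_ne h₁ h₂ hx hy
      rw [evalEval_polynomialY]
      intro h0
      apply hy
      rw [negY, ← hx, ← hyy]
      linear_combination h0
    rw [slope_of_Y_ne_eq_evalEval (congrArg (vcX C) hx) hy', slope_of_Y_ne_eq_evalEval hx hy,
      evalEval_polynomialX_smul, evalEval_polynomialY_smul, vcX'_vcX, vcY'_vcY]
    field_simp
    ring
  · have hx' : vcX C x₁ ≠ vcX C x₂ := fun h => hx (vcX_injective C h)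
    rw [slope_of_X_ne hx', slope_of_X_ne hx]
    have hsub : x₁ - x₂ ≠ 0 := sub_ne_zero.mpr hx
    have hsub' : vcX C x₁ - vcX C x₂ ≠ 0 := sub_ne_zero.mpr hx'
    rw [div_eq_iff hsub']
    simp only [vcX, vcY]
    field_simp
    ring

end eqn

section point

variable (C : VariableChange F) (W : WeierstrassCurve F)

/-- Two affine points with equal coordinates are equal. -/
lemma some_congr {W' : Affine F} {x₁ y₁ x₂ y₂ : F} (h₁ : W'.Nonsingular x₁ y₁)
    (h₂ : W'.Nonsingular x₂ y₂) (hx : x₁ = x₂) (hy : y₁ = y₂) :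
    Point.some x₁ y₁ h₁ = Point.some x₂ y₂ h₂ := by
  subst hx hy
  rfl

/-- The map on points `W.Point → (C • W).Point` induced by a change of variables. -/
def pointMap : W.toAffine.Point → (C • W).toAffine.Point
  | .zero => .zero
  | .some x y h => .some (vcX C x) (vcY C x y) ((nonsingular_iff_smul C W x y).mp h)

/-- The inverse map on points `(C • W).Point → W.Point`. -/
def pointMapInv : (C • W).toAffine.Point → W.toAffine.Point
  | .zero => .zero
  | .some x' y' h => .some (vcX' C x') (vcY' C x' y') ((nonsingular_smul_iff C W x' y').mp h)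

@[simp] lemma pointMap_zero : pointMap C W 0 = 0 := rfl

@[simp] lemma pointMap_some {x y : F} (h : W.toAffine.Nonsingular x y) :
    pointMap C W (.some x y h) =
      .some (vcX C x) (vcY C x y) ((nonsingular_iff_smul C W x y).mp h) := rfl

@[simp] lemma pointMapInv_zero : pointMapInv C W 0 = 0 := rfl

@[simp] lemma pointMapInv_some {x' y' : F} (h : (C • W).toAffine.Nonsingular x' y') :
    pointMapInv C W (.some x' y' h) =
      .some (vcX' C x') (vcY' C x' y') ((nonsingular_smul_iff C W x' y').mp h) := rfl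

lemma pointMapInv_pointMap (P : W.toAffine.Point) : pointMapInv C W (pointMap C W P) = P := by
  rcases P with _ | ⟨x, y, h⟩
  · rfl
  · exact some_congr _ _ (vcX'_vcX C x) (vcY'_vcY C x y)

lemma pointMap_pointMapInv (P : (C • W).toAffine.Point) :
    pointMap C W (pointMapInv C W P) = P := by
  rcases P with _ | ⟨x, y, h⟩
  · rfl
  · exact some_congr _ _ (vcX_vcX' C x) (vcY_vcY' C x y)

variable [DecidableEq F]

lemma pointMap_add (P Q : W.toAffine.Point) :
    pointMap C W (P + Q) = pointMap C W P + pointMap C W Q := by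
  rcases P with _ | ⟨x₁, y₁, h₁⟩
  · change pointMap C W (0 + Q) = 0 + pointMap C W Q
    rw [zero_add, zero_add]
  rcases Q with _ | ⟨x₂, y₂, h₂⟩
  · change pointMap C W (Point.some x₁ y₁ h₁ + 0) = pointMap C W (Point.some x₁ y₁ h₁) + 0
    rw [add_zero, add_zero]
  by_cases hxy : x₁ = x₂ ∧ y₁ = W.toAffine.negY x₂ y₂
  · rw [Point.add_of_Y_eq hxy.1 hxy.2, pointMap_some, pointMap_some,
      Point.add_of_Y_eq (congrArg (vcX C) hxy.1)
        (by rw [negY_smul, hxy.1, hxy.2])]
    rfl
  · have hxy' : ¬(vcX C x₁ = vcX C x₂ ∧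
        vcY C x₁ y₁ = (C • W).toAffine.negY (vcX C x₂) (vcY C x₂ y₂)) := by
      rintro ⟨hx, hy⟩
      have hx' : x₁ = x₂ := vcX_injective C hx
      refine hxy ⟨hx', ?_⟩
      rw [negY_smul, ← hx'] at hy
      exact hx' ▸ vcY_injective C x₁ hy
    rw [Point.add_some hxy, pointMap_some, pointMap_some, pointMap_some, Point.add_some hxy']
    refine some_congr _ _ ?_ ?_
    · rw [slope_smul C W h₁.1 h₂.1 hxy, addX_smul]
    · rw [slope_smul C W h₁.1 h₂.1 hxy, addY_smul]

/-- The isomorphism of groups of points `W.Point ≃+ (C • W).Point` induced by an admissible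
change of variables `C`: a point `(x, y)` is sent to `(u⁻² (x - r), u⁻³ (y - s (x - r) - t))`. -/
def pointEquiv : W.toAffine.Point ≃+ (C • W).toAffine.Point where
  toFun := pointMap C W
  invFun := pointMapInv C W
  left_inv := pointMapInv_pointMap C W
  right_inv := pointMap_pointMapInv C W
  map_add' := pointMap_add C W

@[simp] lemma pointEquiv_zero : pointEquiv C W 0 = 0 := rfl

@[simp] lemma pointEquiv_some {x y : F} (h : W.toAffine.Nonsingular x y) :
    pointEquiv C W (.some x y h) =
      .some (vcX C x) (vcY C x y) ((nonsingular_iff_smul C W x y).mp h) := rfl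

@[simp] lemma pointEquiv_symm_some {x' y' : F} (h : (C • W).toAffine.Nonsingular x' y') :
    (pointEquiv C W).symm (.some x' y' h) =
      .some (vcX' C x') (vcY' C x' y') ((nonsingular_smul_iff C W x' y').mp h) := rfl

/-- Variant of `pointEquiv` in which the target curve `W₂` is only propositionally equal to
`C • W` (for instance a curve given by explicit coefficients, or a base change). -/
def pointEquivOfEq (W₂ : WeierstrassCurve F) (h : C • W = W₂) :
    W.toAffine.Point ≃+ W₂.toAffine.Point :=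
  h ▸ pointEquiv C W

omit [DecidableEq F] in
lemma nonsingular_of_eq {W₂ : WeierstrassCurve F} (h : C • W = W₂) {x y : F}
    (hxy : W.toAffine.Nonsingular x y) : W₂.toAffine.Nonsingular (vcX C x) (vcY C x y) :=
  h ▸ (nonsingular_iff_smul C W x y).mp hxy

@[simp] lemma pointEquivOfEq_zero (W₂ : WeierstrassCurve F) (h : C • W = W₂) :
    pointEquivOfEq C W W₂ h 0 = 0 := by
  subst h
  rfl

@[simp] lemma pointEquivOfEq_some (W₂ : WeierstrassCurve F) (h : C • W = W₂) {x y : F}
    (hxy : W.toAffine.Nonsingular x y) :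
    pointEquivOfEq C W W₂ h (.some x y hxy) =
      .some (vcX C x) (vcY C x y) (nonsingular_of_eq C W h hxy) := by
  subst h
  rfl

end point

end Fermat.Agent.S05.H98
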