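import Fermat.Agent.S05.H98.VarChangeGalois
import Fermat.Prelude.Def_FLTPrelim_CofixedLine

/-!
# Invariance of the Prelude Galois-representation predicates under changes of variables

The change-of-variables isomorphism induces a Galois-equivariant `ZMod n`-linear equivalence of
`n`-torsion modules; hence `GaloisRepIsIrreducible` and `HasGaloisStableCofixedLine` are
invariant under admissible changes of variables defined over the base ring.
-/

set_option autoImplicit false

namespace Fermat.Agent.S05.H98

open WeierstrassCurve WeierstrassCurve.Affine WeierstrassCurve.Affine.Point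

variable {R : Type*} {S : Type*} {K : Type*} [CommRing R] [CommRing S] [Field K]
  [DecidableEq K] [Algebra R S] [Algebra R K] [Algebra S K] [IsScalarTower R S K]

/-- The additive equivalence of `n`-torsion subgroups induced by a change of variables. -/
noncomputable def torsionAddEquiv (C₀ : VariableChange R) (W' : Affine R) (n : ℕ) :
    Submodule.torsionBy ℤ (W'⁄K).Point n ≃+ Submodule.torsionBy ℤ ((C₀ • W')⁄K).Point n where
  toFun x := ⟨baseChangePointEquiv C₀ W' x, baseChangePointEquiv_mem_torsionBy C₀ W' n x.2⟩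
  invFun y := ⟨(baseChangePointEquiv C₀ W').symm y, by
    have hy := y.2
    rw [Submodule.mem_torsionBy_iff] at hy ⊢
    rw [← map_zsmul, hy, _root_.map_zero]⟩
  left_inv x := Subtype.ext (by simp)
  right_inv y := Subtype.ext (by simp)
  map_add' x y := Subtype.ext (by simp)

@[simp] lemma coe_torsionAddEquiv (C₀ : VariableChange R) (W' : Affine R) (n : ℕ)
    (x : Submodule.torsionBy ℤ (W'⁄K).Point n) :
    ((torsionAddEquiv C₀ W' n x : Submodule.torsionBy ℤ ((C₀ • W')⁄K).Point n) :
      ((C₀ • W')⁄K).Point) = baseChangePointEquiv C₀ W' (x : (W'⁄K).Point) := rfl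

/-- The `ZMod n`-linear equivalence of `n`-torsion modules induced by a change of variables. -/
noncomputable def torsionLinearEquiv (C₀ : VariableChange R) (W' : Affine R) (n : ℕ) :
    Submodule.torsionBy ℤ (W'⁄K).Point n ≃ₗ[ZMod n]
      Submodule.torsionBy ℤ ((C₀ • W')⁄K).Point n :=
  { torsionAddEquiv C₀ W' n with
    map_smul' := fun c x =>
      ZMod.map_smul (torsionAddEquiv (K := K) C₀ W' n).toAddMonoidHom c x }

@[simp] lemma coe_torsionLinearEquiv (C₀ : VariableChange R) (W' : Affine R) (n : ℕ)
    (x : Submodule.torsionBy ℤ (W'⁄K).Point n) :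
    ((torsionLinearEquiv C₀ W' n x : Submodule.torsionBy ℤ ((C₀ • W')⁄K).Point n) :
      ((C₀ • W')⁄K).Point) = baseChangePointEquiv C₀ W' (x : (W'⁄K).Point) := rfl

/-- The torsion equivalence commutes with the Galois action. -/
lemma torsionLinearEquiv_smul (C₀ : VariableChange R) (W' : Affine R) (n : ℕ) (σ : K ≃ₐ[S] K)
    (x : Submodule.torsionBy ℤ (W'⁄K).Point n) :
    torsionLinearEquiv C₀ W' n (σ • x) = σ • torsionLinearEquiv C₀ W' n x :=
  Subtype.ext (baseChangePointEquiv_smul C₀ W' σ (x : (W'⁄K).Point))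

lemma torsionLinearEquiv_symm_smul (C₀ : VariableChange R) (W' : Affine R) (n : ℕ)
    (σ : K ≃ₐ[S] K) (y : Submodule.torsionBy ℤ ((C₀ • W')⁄K).Point n) :
    (torsionLinearEquiv C₀ W' n).symm (σ • y) = σ • (torsionLinearEquiv C₀ W' n).symm y := by
  apply (torsionLinearEquiv C₀ W' n).injective
  rw [torsionLinearEquiv_smul, LinearEquiv.apply_symm_apply, LinearEquiv.apply_symm_apply]

/-- Galois-stability is preserved by the torsion equivalence. -/
lemma isGaloisStable_map (C₀ : VariableChange R) (W' : Affine R) (n : ℕ)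
    {N : Submodule (ZMod n) (Submodule.torsionBy ℤ (W'⁄K).Point n)}
    (hN : IsGaloisStable S N) :
    IsGaloisStable S (N.map (torsionLinearEquiv C₀ W' n).toLinearMap) := by
  rintro σ _ ⟨x, hx, rfl⟩
  exact ⟨σ • x, hN σ x hx, torsionLinearEquiv_smul C₀ W' n σ x⟩

/-- `GaloisRepIsIrreducible` can be checked after a change of variables. -/
theorem galoisRepIsIrreducible_of_smul (C₀ : VariableChange R) (W' : Affine R) (n : ℕ)
    (h : GaloisRepIsIrreducible (K := K) S (C₀ • W') n) :
    GaloisRepIsIrreducible (K := K) S W' n := by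
  obtain ⟨hnt, hirr⟩ := h
  refine ⟨(torsionLinearEquiv C₀ W' n).toEquiv.nontrivial, fun N hN => ?_⟩
  rcases hirr _ (isGaloisStable_map (S := S) C₀ W' n hN) with h0 | h1
  · left
    exact Submodule.map_eq_bot_iff.mp h0
  · right
    rw [eq_top_iff] at h1 ⊢
    intro x _
    obtain ⟨y, hy, hxy⟩ := h1 (Submodule.mem_top (x := torsionLinearEquiv C₀ W' n x))
    rwa [← (torsionLinearEquiv C₀ W' n).injective hxy]

/-- `GaloisRepIsIrreducible` is invariant under changes of variables. -/
theorem galoisRepIsIrreducible_smul_iff (C₀ : VariableChange R) (W' : Affine R) (n : ℕ) :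
    GaloisRepIsIrreducible (K := K) S (C₀ • W') n ↔ GaloisRepIsIrreducible (K := K) S W' n := by
  refine ⟨galoisRepIsIrreducible_of_smul C₀ W' n, fun h => ?_⟩
  have h' : GaloisRepIsIrreducible (K := K) S (C₀⁻¹ • (C₀ • W')) n := by
    rwa [inv_smul_smul]
  exact galoisRepIsIrreducible_of_smul C₀⁻¹ (C₀ • W') n h'

/-- `HasGaloisStableCofixedLine` can be checked after a change of variables. -/
theorem hasGaloisStableCofixedLine_of_smul (C₀ : VariableChange R) (W' : Affine R) (n : ℕ)
    (h : HasGaloisStableCofixedLine S K W' n) :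
    HasGaloisStableCofixedLine S K (C₀ • W') n := by
  obtain ⟨N, hst, hbot, htop, hcof⟩ := h
  refine ⟨N.map (torsionLinearEquiv C₀ W' n).toLinearMap, isGaloisStable_map C₀ W' n hst,
    ?_, ?_, ?_⟩
  · intro h0
    exact hbot (Submodule.map_eq_bot_iff.mp h0)
  · intro h1
    apply htop
    rw [eq_top_iff] at h1 ⊢
    intro x _
    obtain ⟨y, hy, hxy⟩ := h1 (Submodule.mem_top (x := torsionLinearEquiv C₀ W' n x))
    rwa [← (torsionLinearEquiv C₀ W' n).injective hxy]
  · intro σ y
    obtain ⟨x, rfl⟩ := (torsionLinearEquiv C₀ W' n).surjective y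
    refine ⟨σ • x - x, hcof σ x, ?_⟩
    rw [LinearEquiv.coe_coe, map_sub, torsionLinearEquiv_smul]

/-- `HasGaloisStableCofixedLine` is invariant under changes of variables. -/
theorem hasGaloisStableCofixedLine_smul_iff (C₀ : VariableChange R) (W' : Affine R) (n : ℕ) :
    HasGaloisStableCofixedLine S K (C₀ • W') n ↔ HasGaloisStableCofixedLine S K W' n := by
  refine ⟨fun h => ?_, hasGaloisStableCofixedLine_of_smul C₀ W' n⟩
  have h' := hasGaloisStableCofixedLine_of_smul C₀⁻¹ (C₀ • W') n h
  rwa [inv_smul_smul] at h'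

end Fermat.Agent.S05.H98
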